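import Fermat.Agent.LT.T3.H315.AbelCut

/-!
# Row LT, tower T3, sub-leaf AS.2.1 `RegC` (registry 1169) -- helper811, OFF-MAIN

`regC811 : H315.RegC`: for `β` smooth, symmetric, of compact support the test function
`abelFn β h = abelInv614 (E_c) (chD614 h)`, `c = log |det h|`, `E_c(u) = β((c+u)/2, (c-u)/2)`, is
continuous, of compact support and bi-`U(2)`-invariant on `GL₂(ℂ)`.

Joint continuity: with `B(c, u) = E_c(u)`, `B₁ = ∂_u B`, `B₂ = ∂_u² B` and
`S(r) = ∫₀¹ cosh(t r) dt = sinh r / r`, `G(c, r) = ∫₀¹ B₂(c, t r) dt = B₁(c, r) / r` (Hadamard,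
`B₁(c, 0) = 0` by evenness):  `abelInv614 (E_c) (cosh r) = -(2π)⁻¹ S(r)⁻¹ G(c, r)` for ALL `r ≥ 0`.
-/

set_option autoImplicit false

open MeasureTheory Set Real Filter Topology
open Fermat.Agent.LT.T3.AS Fermat.Agent.LT.T3.H614 Fermat.Agent.LT.T3.H315

noncomputable section

namespace Fermat.Agent.LT.T3.H811

/-! ## Hadamard's lemma -/

/-- `f(r) - f(0) = r ∫₀¹ f'(t r) dt`. -/
lemma hadamard811 {E : Type*} [NormedAddCommGroup E] [NormedSpace ℝ E] [CompleteSpace E]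
    (f f' : ℝ → E) (hf : ∀ x, HasDerivAt f (f' x) x) (hf' : Continuous f') (r : ℝ) :
    f r - f 0 = r • ∫ t in (0 : ℝ)..1, f' (t * r) := by
  have h1 : ∀ t ∈ Set.uIcc (0 : ℝ) 1, HasDerivAt (fun t => f (t * r)) (r • f' (t * r)) t := by
    intro t _
    have := (hf (t * r)).scomp t ((hasDerivAt_id t).mul_const r)
    simp only [id_eq, one_mul] at this
    exact this
  have h2 : IntervalIntegrable (fun t => r • f' (t * r)) volume 0 1 :=
    Continuous.intervalIntegrable (by fun_prop) _ _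
  have := intervalIntegral.integral_eq_sub_of_hasDerivAt h1 h2
  rw [intervalIntegral.integral_smul] at this
  simpa using this.symm

/-- `S(r) = ∫₀¹ cosh(t r) dt` (`= sinh r / r`). -/
def sinhInt811 (r : ℝ) : ℝ := ∫ t in (0 : ℝ)..1, Real.cosh (t * r)

lemma sinh_eq811 (r : ℝ) : Real.sinh r = r * sinhInt811 r := by
  have := hadamard811 Real.sinh Real.cosh Real.hasDerivAt_sinh Real.continuous_cosh r
  simpa [sinhInt811] using this

lemma one_le_sinhInt811 (r : ℝ) : 1 ≤ sinhInt811 r := by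
  have h : ∫ _t in (0 : ℝ)..1, (1 : ℝ) ≤ ∫ t in (0 : ℝ)..1, Real.cosh (t * r) := by
    apply intervalIntegral.integral_mono_on zero_le_one
    · exact intervalIntegrable_const
    · exact Continuous.intervalIntegrable (by fun_prop) _ _
    · intro t _
      exact Real.one_le_cosh _
  simpa [sinhInt811] using h

lemma continuous_sinhInt811 : Continuous sinhInt811 := by
  unfold sinhInt811
  apply intervalIntegral.continuous_parametric_intervalIntegral_of_continuous'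
  fun_prop

/-! ## The slices of `β` -/

/-- `B(c, u) = β((c+u)/2, (c-u)/2)`. -/
def rot811 (β : ℝ × ℝ → ℂ) (p : ℝ × ℝ) : ℂ := β ((p.1 + p.2) / 2, (p.1 - p.2) / 2)

/-- `B₁ = ∂_u B`. -/
def rotD811 (β : ℝ × ℝ → ℂ) (p : ℝ × ℝ) : ℂ := fderiv ℝ (rot811 β) p (0, 1)

/-- `B₂ = ∂_u² B`. -/
def rotDD811 (β : ℝ × ℝ → ℂ) (p : ℝ × ℝ) : ℂ := fderiv ℝ (rotD811 β) p (0, 1)

lemma sliceE_eq811 (β : ℝ × ℝ → ℂ) (c : ℝ) : sliceE β c = fun u => rot811 β (c, u) := rfl

variable {β : ℝ × ℝ → ℂ}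

lemma contDiff_rot811 (hβ : ContDiff ℝ ((⊤ : ℕ∞) : WithTop ℕ∞) β) :
    ContDiff ℝ ((⊤ : ℕ∞) : WithTop ℕ∞) (rot811 β) := by
  unfold rot811
  apply hβ.comp
  fun_prop

lemma contDiff_rotD811 (hβ : ContDiff ℝ ((⊤ : ℕ∞) : WithTop ℕ∞) β) :
    ContDiff ℝ ((⊤ : ℕ∞) : WithTop ℕ∞) (rotD811 β) := by
  unfold rotD811
  exact ((contDiff_rot811 hβ).fderiv_right (m := ((⊤ : ℕ∞) : WithTop ℕ∞)) (by simp)).clm_apply
    contDiff_const

lemma continuous_rotDD811 (hβ : ContDiff ℝ ((⊤ : ℕ∞) : WithTop ℕ∞) β) :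
    Continuous (rotDD811 β) := by
  unfold rotDD811
  exact (((contDiff_rotD811 hβ).fderiv_right (m := ((⊤ : ℕ∞) : WithTop ℕ∞))
    (by simp)).clm_apply contDiff_const).continuous

lemma hasDerivAt_slice811 {B : ℝ × ℝ → ℂ} (hB : Differentiable ℝ B) (c u : ℝ) :
    HasDerivAt (fun u => B (c, u)) (fderiv ℝ B (c, u) (0, 1)) u := by
  have h1 : HasFDerivAt B (fderiv ℝ B (c, u)) (c, u) := (hB (c, u)).hasFDerivAt
  have h2 : HasDerivAt (fun u : ℝ => ((c, u) : ℝ × ℝ)) ((0, 1) : ℝ × ℝ) u :=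
    (hasDerivAt_const u c).prodMk (hasDerivAt_id u)
  exact h1.comp_hasDerivAt u h2

lemma hasDerivAt_rot811 (hβ : ContDiff ℝ ((⊤ : ℕ∞) : WithTop ℕ∞) β) (c u : ℝ) :
    HasDerivAt (fun u => rot811 β (c, u)) (rotD811 β (c, u)) u :=
  hasDerivAt_slice811 ((contDiff_rot811 hβ).differentiable (by simp)) c u

lemma hasDerivAt_rotD811 (hβ : ContDiff ℝ ((⊤ : ℕ∞) : WithTop ℕ∞) β) (c u : ℝ) :
    HasDerivAt (fun u => rotD811 β (c, u)) (rotDD811 β (c, u)) u :=
  hasDerivAt_slice811 ((contDiff_rotD811 hβ).differentiable (by simp)) c u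

lemma deriv_sliceE811 (hβ : ContDiff ℝ ((⊤ : ℕ∞) : WithTop ℕ∞) β) (c : ℝ) :
    deriv (sliceE β c) = fun u => rotD811 β (c, u) := by
  funext u
  rw [sliceE_eq811]
  exact (hasDerivAt_rot811 hβ c u).deriv

lemma deriv_deriv_sliceE811 (hβ : ContDiff ℝ ((⊤ : ℕ∞) : WithTop ℕ∞) β) (c u : ℝ) :
    deriv (deriv (sliceE β c)) u = rotDD811 β (c, u) := by
  rw [deriv_sliceE811 hβ]
  exact (hasDerivAt_rotD811 hβ c u).deriv

/-! ## Evenness and support of the slices -/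

lemma exists_bound811 (hs : HasCompactSupport β) :
    ∃ M : ℝ, 0 ≤ M ∧ ∀ p : ℝ × ℝ, β p ≠ 0 → |p.1| ≤ M ∧ |p.2| ≤ M := by
  obtain ⟨C, hC⟩ := isBounded_iff_forall_norm_le.1 hs.isCompact.isBounded
  refine ⟨max C 0, le_max_right _ _, fun p hp => ?_⟩
  have hp' : p ∈ tsupport β := subset_tsupport _ hp
  have h := hC p hp'
  rw [Prod.norm_def, Real.norm_eq_abs, Real.norm_eq_abs] at h
  exact ⟨(le_max_left _ _).trans (h.trans (le_max_left _ _)),
    (le_max_right _ _).trans (h.trans (le_max_left _ _))⟩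

lemma sliceE_eq_zero811 {M : ℝ} (hM : ∀ p : ℝ × ℝ, β p ≠ 0 → |p.1| ≤ M ∧ |p.2| ≤ M) (c u : ℝ)
    (h : 2 * M < |u| ∨ 2 * M < |c|) : sliceE β c u = 0 := by
  by_contra hne
  obtain ⟨h1, h2⟩ := hM _ hne
  simp only at h1 h2
  rw [abs_le] at h1 h2
  rcases h with h | h
  · have : |u| ≤ 2 * M := by
      rw [abs_le]
      constructor <;> linarith [h1.1, h1.2, h2.1, h2.2]
    linarith
  · have : |c| ≤ 2 * M := by
      rw [abs_le]
      constructor <;> linarith [h1.1, h1.2, h2.1, h2.2]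
    linarith

lemma isEvenTest_sliceE811 (hβ : IsSymBump β) {M : ℝ}
    (hM : ∀ p : ℝ × ℝ, β p ≠ 0 → |p.1| ≤ M ∧ |p.2| ≤ M) (c : ℝ) :
    IsEvenTest614 (sliceE β c) (2 * M + 1) where
  smooth := by
    rw [sliceE_eq811]
    have h : ContDiff ℝ ((⊤ : ℕ∞) : WithTop ℕ∞) (fun u : ℝ => rot811 β (c, u)) :=
      (contDiff_rot811 hβ.1).comp (by fun_prop)
    exact h.of_le (by norm_cast)
  even := by
    intro u
    unfold sliceE
    rw [hβ.2.2]
    have e1 : (c - -u) / 2 = (c + u) / 2 := by ring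
    have e2 : (c + -u) / 2 = (c - u) / 2 := by ring
    rw [e1, e2]
  supp := by
    intro u hu
    exact sliceE_eq_zero811 hM c u (Or.inl (by linarith))

/-! ## The closed formula -/

/-- `G(c, r) = ∫₀¹ B₂(c, t r) dt`. -/
def hadG811 (β : ℝ × ℝ → ℂ) (p : ℝ × ℝ) : ℂ := ∫ t in (0 : ℝ)..1, rotDD811 β (p.1, t * p.2)

lemma continuous_hadG811 (hβ : ContDiff ℝ ((⊤ : ℕ∞) : WithTop ℕ∞) β) :
    Continuous (hadG811 β) := by
  unfold hadG811
  apply intervalIntegral.continuous_parametric_intervalIntegral_of_continuous'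
  have := continuous_rotDD811 hβ
  fun_prop

lemma rotD_eq811 (hβ : IsSymBump β) (c r : ℝ) : rotD811 β (c, r) = r • hadG811 β (c, r) := by
  obtain ⟨M, -, hM⟩ := exists_bound811 hβ.2.1
  have h0 : rotD811 β (c, 0) = 0 := by
    have := (isEvenTest_sliceE811 hβ hM c).deriv_zero
    rw [deriv_sliceE811 hβ.1] at this
    exact this
  have hc : Continuous fun u : ℝ => rotDD811 β (c, u) :=
    (continuous_rotDD811 hβ.1).comp (by fun_prop)
  have := hadamard811 (fun u => rotD811 β (c, u)) (fun u => rotDD811 β (c, u))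
    (hasDerivAt_rotD811 hβ.1 c) hc r
  simp only [h0, sub_zero] at this
  rw [this]
  rfl

/-- `Q(c, r) = -(2π)⁻¹ S(r)⁻¹ G(c, r)`. -/
def abelQ811 (β : ℝ × ℝ → ℂ) (p : ℝ × ℝ) : ℂ :=
  (-(2 * π)⁻¹ : ℝ) • ((sinhInt811 p.2)⁻¹ • hadG811 β p)

lemma continuous_abelQ811 (hβ : ContDiff ℝ ((⊤ : ℕ∞) : WithTop ℕ∞) β) :
    Continuous (abelQ811 β) := by
  unfold abelQ811
  have h1 : Continuous fun p : ℝ × ℝ => (sinhInt811 p.2)⁻¹ :=
    (continuous_sinhInt811.comp continuous_snd).inv₀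
      (fun p => (lt_of_lt_of_le one_pos (one_le_sinhInt811 p.2)).ne')
  exact (h1.smul (continuous_hadG811 hβ)).const_smul (-(2 * π)⁻¹ : ℝ)

lemma abelInv_eq811 (hβ : IsSymBump β) (c X : ℝ) (hX : 1 ≤ X) :
    abelInv614 (sliceE β c) X = abelQ811 β (c, Real.arcosh X) := by
  rcases hX.eq_or_lt with rfl | hlt
  · rw [abelInv614_of_le le_rfl, deriv_deriv_sliceE811 hβ.1]
    simp [abelQ811, sinhInt811, hadG811]
  · rw [abelInv614_of_lt hlt, deriv_sliceE811 hβ.1]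
    have hr : 0 < Real.arcosh X := Real.arcosh_pos hlt
    have hs : √(X ^ 2 - 1) = Real.arcosh X * sinhInt811 (Real.arcosh X) := by
      rw [← Real.sinh_arcosh hX, sinh_eq811]
    have hS : 0 < sinhInt811 (Real.arcosh X) := lt_of_lt_of_le one_pos (one_le_sinhInt811 _)
    simp only [abelQ811]
    rw [hs, rotD_eq811 hβ, smul_smul, smul_smul]
    congr 1
    field_simp

/-! ## The group `GL₂(ℂ)` -/

lemma det_ne_zero811 (h : GL (Fin 2) ℂ) : (h : Matrix (Fin 2) (Fin 2) ℂ).det ≠ 0 :=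
  ((Matrix.isUnit_iff_isUnit_det _).1 h.isUnit).ne_zero

lemma continuous_entry811 (i j : Fin 2) :
    Continuous fun h : GL (Fin 2) ℂ => (h : Matrix (Fin 2) (Fin 2) ℂ) i j :=
  Units.continuous_val.matrix_elem i j

lemma continuous_det811 :
    Continuous fun h : GL (Fin 2) ℂ => (h : Matrix (Fin 2) (Fin 2) ℂ).det :=
  Units.continuous_val.matrix_det

lemma continuous_chD811 :
    Continuous fun h : GL (Fin 2) ℂ => chD614 (h : Matrix (Fin 2) (Fin 2) ℂ) := by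
  unfold chD614 hsq614
  apply Continuous.div
  · have := continuous_entry811
    fun_prop
  · have := continuous_det811
    fun_prop
  · intro h
    have := norm_pos_iff.2 (det_ne_zero811 h)
    positivity

lemma continuous_logdet811 :
    Continuous fun h : GL (Fin 2) ℂ => Real.log ‖(h : Matrix (Fin 2) (Fin 2) ℂ).det‖ :=
  (continuous_det811.norm).log (fun h => (norm_pos_iff.2 (det_ne_zero811 h)).ne')

lemma abelFn_eq811 (hβ : IsSymBump β) (h : GL (Fin 2) ℂ) :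
    abelFn β h = abelQ811 β (Real.log ‖(h : Matrix (Fin 2) (Fin 2) ℂ).det‖,
      Real.arcosh (chD614 (h : Matrix (Fin 2) (Fin 2) ℂ))) :=
  abelInv_eq811 hβ _ _ (one_le_chD614 _ (det_ne_zero811 h))

lemma continuous_abelFn811 (hβ : IsSymBump β) : Continuous (abelFn β) := by
  have h1 : Continuous fun h : GL (Fin 2) ℂ =>
      Real.arcosh (chD614 (h : Matrix (Fin 2) (Fin 2) ℂ)) :=
    Real.continuousOn_arcosh.comp_continuous continuous_chD811
      (fun h => one_le_chD614 _ (det_ne_zero811 h))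
  have h2 : abelFn β = fun h : GL (Fin 2) ℂ =>
      abelQ811 β (Real.log ‖(h : Matrix (Fin 2) (Fin 2) ℂ).det‖,
        Real.arcosh (chD614 (h : Matrix (Fin 2) (Fin 2) ℂ))) := funext (abelFn_eq811 hβ)
  rw [h2]
  exact (continuous_abelQ811 hβ.1).comp (continuous_logdet811.prodMk h1)

lemma abelFn_biInv811 (β : ℝ × ℝ → ℂ) (k k' g : GL (Fin 2) ℂ) (hk : IsUnitary2 k)
    (hk' : IsUnitary2 k') : abelFn β (k * g * k') = abelFn β g := by
  have e1 : (k : Matrix (Fin 2) (Fin 2) ℂ) * (k : Matrix (Fin 2) (Fin 2) ℂ).conjTranspose = 1 := hk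
  have e2 : (k' : Matrix (Fin 2) (Fin 2) ℂ) * (k' : Matrix (Fin 2) (Fin 2) ℂ).conjTranspose = 1 :=
    hk'
  unfold abelFn
  rw [Units.val_mul, Units.val_mul, chD614_mul_unitary_right _ _ e2,
    chD614_mul_unitary_left _ _ e1, Matrix.det_mul, Matrix.det_mul, norm_mul, norm_mul,
    norm_det_of_unitary614 _ e1, norm_det_of_unitary614 _ e2, one_mul, mul_one]

/-! ## Compact support -/

/-- The box `{A : |A i j| ≤ C}` of matrices is compact. -/
lemma isCompact_box811 (C : ℝ) :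
    IsCompact {A : Matrix (Fin 2) (Fin 2) ℂ | ∀ i j, ‖A i j‖ ≤ C} := by
  have h : IsCompact (Set.pi Set.univ fun _ : Fin 2 => Set.pi Set.univ fun _ : Fin 2 =>
      Metric.closedBall (0 : ℂ) C) :=
    isCompact_univ_pi fun _ => isCompact_univ_pi fun _ => isCompact_closedBall 0 C
  have e : {A : Matrix (Fin 2) (Fin 2) ℂ | ∀ i j, ‖A i j‖ ≤ C}
      = (Set.pi Set.univ fun _ : Fin 2 => Set.pi Set.univ fun _ : Fin 2 =>
          Metric.closedBall (0 : ℂ) C) := by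
    ext A
    constructor
    · intro hA i _ j _
      have := hA i j
      simpa using this
    · intro hA i j
      have := hA i (Set.mem_univ i) j (Set.mem_univ j)
      simpa using this
  rw [e]
  exact h

/-- A closed subset of `GL₂(ℂ)` on which the entries of `h` and `h⁻¹` are bounded is compact. -/
lemma isCompact_of_bounded811 (K : Set (GL (Fin 2) ℂ)) (hK : IsClosed K) (C : ℝ)
    (h1 : ∀ h ∈ K, ∀ i j, ‖(h : Matrix (Fin 2) (Fin 2) ℂ) i j‖ ≤ C)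
    (h2 : ∀ h ∈ K, ∀ i j, ‖((h⁻¹ : GL (Fin 2) ℂ) : Matrix (Fin 2) (Fin 2) ℂ) i j‖ ≤ C) :
    IsCompact K := by
  have hemb := Units.isClosedEmbedding_embedProduct (α := Matrix (Fin 2) (Fin 2) ℂ)
  rw [hemb.isEmbedding.isCompact_iff]
  have hbox : IsCompact (({A : Matrix (Fin 2) (Fin 2) ℂ | ∀ i j, ‖A i j‖ ≤ C}) ×ˢ
      (MulOpposite.op '' {A : Matrix (Fin 2) (Fin 2) ℂ | ∀ i j, ‖A i j‖ ≤ C})) :=
    (isCompact_box811 C).prod ((isCompact_box811 C).image MulOpposite.continuous_op)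
  refine IsCompact.of_isClosed_subset hbox (hemb.isClosedMap _ hK) ?_
  rintro _ ⟨h, hh, rfl⟩
  refine ⟨h1 h hh, ⟨((h⁻¹ : GL (Fin 2) ℂ) : Matrix (Fin 2) (Fin 2) ℂ), h2 h hh, rfl⟩⟩

lemma norm_entry_le811 (A : Matrix (Fin 2) (Fin 2) ℂ) (i j : Fin 2) :
    ‖A i j‖ ^ 2 ≤ hsq614 A := by
  unfold hsq614
  fin_cases i <;> fin_cases j <;> simp <;> nlinarith [sq_nonneg ‖A 0 0‖, sq_nonneg ‖A 0 1‖,
    sq_nonneg ‖A 1 0‖, sq_nonneg ‖A 1 1‖]

lemma norm_entry_le_of811 (A : Matrix (Fin 2) (Fin 2) ℂ) (i j : Fin 2) {C : ℝ} (hC : 0 ≤ C)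
    (h : hsq614 A ≤ C) : ‖A i j‖ ≤ C + 1 := by
  have h1 := norm_entry_le811 A i j
  nlinarith [norm_nonneg (A i j)]

lemma norm_inv_entry811 (h : GL (Fin 2) ℂ) (i j : Fin 2) :
    ∃ i' j' : Fin 2, ‖((h⁻¹ : GL (Fin 2) ℂ) : Matrix (Fin 2) (Fin 2) ℂ) i j‖
      = ‖(h : Matrix (Fin 2) (Fin 2) ℂ).det‖⁻¹ * ‖(h : Matrix (Fin 2) (Fin 2) ℂ) i' j'‖ := by
  rw [Matrix.coe_units_inv, Matrix.inv_def, Matrix.adjugate_fin_two, Ring.inverse_eq_inv']
  fin_cases i <;> fin_cases j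
  · exact ⟨1, 1, by simp⟩
  · exact ⟨0, 1, by simp⟩
  · exact ⟨1, 0, by simp⟩
  · exact ⟨0, 0, by simp⟩

/-- The set `{|log |det h|| ≤ a, chD614 h ≤ b}` is compact in `GL₂(ℂ)`. -/
lemma isCompact_region811 (a b : ℝ) :
    IsCompact {h : GL (Fin 2) ℂ | |Real.log ‖(h : Matrix (Fin 2) (Fin 2) ℂ).det‖| ≤ a ∧
      chD614 (h : Matrix (Fin 2) (Fin 2) ℂ) ≤ b} := by
  have hcl : IsClosed {h : GL (Fin 2) ℂ | |Real.log ‖(h : Matrix (Fin 2) (Fin 2) ℂ).det‖| ≤ a ∧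
      chD614 (h : Matrix (Fin 2) (Fin 2) ℂ) ≤ b} :=
    (isClosed_le continuous_logdet811.abs continuous_const).inter
      (isClosed_le continuous_chD811 continuous_const)
  -- bounds
  have key : ∀ h : GL (Fin 2) ℂ, |Real.log ‖(h : Matrix (Fin 2) (Fin 2) ℂ).det‖| ≤ a →
      chD614 (h : Matrix (Fin 2) (Fin 2) ℂ) ≤ b →
      ‖(h : Matrix (Fin 2) (Fin 2) ℂ).det‖ ≤ Real.exp a ∧
      ‖(h : Matrix (Fin 2) (Fin 2) ℂ).det‖⁻¹ ≤ Real.exp a ∧
      hsq614 (h : Matrix (Fin 2) (Fin 2) ℂ) ≤ 2 * Real.exp a * |b| := by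
    intro h ha hb
    have hd : 0 < ‖(h : Matrix (Fin 2) (Fin 2) ℂ).det‖ := norm_pos_iff.2 (det_ne_zero811 h)
    rw [abs_le] at ha
    have hd1 : ‖(h : Matrix (Fin 2) (Fin 2) ℂ).det‖ ≤ Real.exp a := by
      rw [← Real.exp_log hd]
      exact Real.exp_le_exp.2 ha.2
    have hd2 : ‖(h : Matrix (Fin 2) (Fin 2) ℂ).det‖⁻¹ ≤ Real.exp a := by
      rw [← Real.exp_log hd, ← Real.exp_neg]
      exact Real.exp_le_exp.2 (by linarith [ha.1])
    refine ⟨hd1, hd2, ?_⟩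
    have h3 : hsq614 (h : Matrix (Fin 2) (Fin 2) ℂ)
        = chD614 (h : Matrix (Fin 2) (Fin 2) ℂ) * (2 * ‖(h : Matrix (Fin 2) (Fin 2) ℂ).det‖) := by
      unfold chD614
      field_simp
    rw [h3]
    have hb' : chD614 (h : Matrix (Fin 2) (Fin 2) ℂ) ≤ |b| := hb.trans (le_abs_self b)
    have hch : 0 ≤ chD614 (h : Matrix (Fin 2) (Fin 2) ℂ) :=
      zero_le_one.trans (one_le_chD614 _ (det_ne_zero811 h))
    calc chD614 (h : Matrix (Fin 2) (Fin 2) ℂ) * (2 * ‖(h : Matrix (Fin 2) (Fin 2) ℂ).det‖)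
        ≤ |b| * (2 * Real.exp a) := by
          apply mul_le_mul hb' (by linarith) (by positivity) (abs_nonneg b)
      _ = 2 * Real.exp a * |b| := by ring
  have hC0 : 0 ≤ 2 * Real.exp a * |b| := by positivity
  refine isCompact_of_bounded811 _ hcl
    ((2 * Real.exp a * |b| + 1) * (1 + Real.exp a)) ?_ ?_
  · rintro h ⟨ha, hb⟩ i j
    obtain ⟨-, -, k3⟩ := key h ha hb
    have := norm_entry_le_of811 _ i j hC0 k3
    have e : 0 ≤ (2 * Real.exp a * |b| + 1) * Real.exp a := by positivity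
    nlinarith
  · rintro h ⟨ha, hb⟩ i j
    obtain ⟨-, k2, k3⟩ := key h ha hb
    obtain ⟨i', j', e⟩ := norm_inv_entry811 h i j
    rw [e]
    have h5 := norm_entry_le_of811 _ i' j' hC0 k3
    have h6 : 0 ≤ ‖(h : Matrix (Fin 2) (Fin 2) ℂ).det‖⁻¹ := by positivity
    calc ‖(h : Matrix (Fin 2) (Fin 2) ℂ).det‖⁻¹ * ‖(h : Matrix (Fin 2) (Fin 2) ℂ) i' j'‖
        ≤ Real.exp a * (2 * Real.exp a * |b| + 1) :=
          mul_le_mul k2 h5 (norm_nonneg _) (Real.exp_pos a).le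
      _ ≤ (2 * Real.exp a * |b| + 1) * (1 + Real.exp a) := by nlinarith [Real.exp_pos a]

lemma abelInv_zero811 (X : ℝ) : abelInv614 (fun _ : ℝ => (0 : ℂ)) X = 0 := by
  unfold abelInv614
  split_ifs <;> simp

lemma hasCompactSupport_abelFn811 (hβ : IsSymBump β) : HasCompactSupport (abelFn β) := by
  obtain ⟨M, -, hM⟩ := exists_bound811 hβ.2.1
  refine HasCompactSupport.intro (isCompact_region811 (2 * M) (Real.cosh (2 * M + 1))) ?_
  intro h hh
  have hh' : ¬ (|Real.log ‖(h : Matrix (Fin 2) (Fin 2) ℂ).det‖| ≤ 2 * M ∧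
      chD614 (h : Matrix (Fin 2) (Fin 2) ℂ) ≤ Real.cosh (2 * M + 1)) := hh
  unfold abelFn
  rcases not_and_or.1 hh' with hh | hh
  · rw [not_le] at hh
    have e : sliceE β (Real.log ‖(h : Matrix (Fin 2) (Fin 2) ℂ).det‖) = fun _ : ℝ => (0 : ℂ) := by
      funext u
      exact sliceE_eq_zero811 hM _ u (Or.inr hh)
    rw [e]
    exact abelInv_zero811 _
  · rw [not_le] at hh
    exact (isEvenTest_sliceE811 hβ hM _).abelInv_eq_zero hh

/-! ## The leaf -/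

/-- **AS.2.1 REG**: the test function is continuous, of compact support, bi-`U(2)`-invariant. -/
theorem regC811 : RegC := fun β hβ =>
  { cont := continuous_abelFn811 hβ
    supp := hasCompactSupport_abelFn811 hβ
    bi_inv := fun k k' g hk hk' => abelFn_biInv811 β k k' g hk hk' }

end Fermat.Agent.LT.T3.H811

end
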